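import Mathlib

/-!
# Row LT, tower A2, leaf A2.03.1.1.11 `WX467.AsmC` (helper441): the level ideal

OFF-MAIN.  Mathlib only.  For a Dedekind domain `R`, a nonzero ideal `𝔡`, a finite set `S` of
height one primes and depths `N : S → ℕ`:

    `asmLevel441 𝔡 S N = 𝔡 * ∏_{v ∈ S} v ^ (N v + 1)`.
-/

set_option autoImplicit false
set_option linter.unusedSectionVars false

open IsDedekindDomain

namespace Fermat.Agent.LT.A2.H441

variable {R : Type*} [CommRing R] [IsDedekindDomain R]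

/-- The level `𝔡 · ∏_{v ∈ S} v ^ (N v + 1)`. -/
noncomputable def asmLevel441 (𝔡 : Ideal R) (S : Finset (HeightOneSpectrum R))
    (N : HeightOneSpectrum R → ℕ) : Ideal R :=
  𝔡 * ∏ v ∈ S, v.asIdeal ^ (N v + 1)

theorem asmLevel441_ne_bot {𝔡 : Ideal R} (h𝔡 : 𝔡 ≠ ⊥) (S : Finset (HeightOneSpectrum R))
    (N : HeightOneSpectrum R → ℕ) : asmLevel441 𝔡 S N ≠ ⊥ := by
  unfold asmLevel441
  rw [← Ideal.zero_eq_bot]
  refine mul_ne_zero h𝔡 ?_
  rw [Finset.prod_ne_zero_iff]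
  intro v _
  exact pow_ne_zero _ v.ne_bot

theorem asmLevel441_le (𝔡 : Ideal R) (S : Finset (HeightOneSpectrum R))
    (N : HeightOneSpectrum R → ℕ) : asmLevel441 𝔡 S N ≤ 𝔡 :=
  Ideal.mul_le_left

theorem asmLevel441_le_pow (𝔡 : Ideal R) (S : Finset (HeightOneSpectrum R))
    (N : HeightOneSpectrum R → ℕ) {v : HeightOneSpectrum R} (hv : v ∈ S) :
    asmLevel441 𝔡 S N ≤ v.asIdeal ^ (N v + 1) := by
  unfold asmLevel441
  refine le_trans Ideal.mul_le_right ?_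
  exact Ideal.le_of_dvd (Finset.dvd_prod_of_mem (fun w => w.asIdeal ^ (N w + 1)) hv)

theorem asmLevel441_le_pow' (𝔡 : Ideal R) (S : Finset (HeightOneSpectrum R))
    (N : HeightOneSpectrum R → ℕ) {v : HeightOneSpectrum R} (hv : v ∈ S) :
    asmLevel441 𝔡 S N ≤ v.asIdeal ^ N v :=
  le_trans (asmLevel441_le_pow 𝔡 S N hv) (Ideal.pow_le_pow_right (Nat.le_succ _))

theorem asmLevel441_dvd (𝔡 : Ideal R) (S : Finset (HeightOneSpectrum R))
    (N : HeightOneSpectrum R → ℕ) {v : HeightOneSpectrum R} (hv : v ∈ S) :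
    v.asIdeal ∣ asmLevel441 𝔡 S N := by
  rw [Ideal.dvd_iff_le]
  refine le_trans (asmLevel441_le_pow 𝔡 S N hv) ?_
  exact Ideal.pow_le_self (Nat.succ_ne_zero _)

theorem asmLevel441_not_dvd (𝔡 : Ideal R) (S : Finset (HeightOneSpectrum R))
    (N : HeightOneSpectrum R → ℕ) {v : HeightOneSpectrum R} (hv : v ∉ S)
    (hd : ¬ v.asIdeal ∣ 𝔡) : ¬ v.asIdeal ∣ asmLevel441 𝔡 S N := by
  intro h
  unfold asmLevel441 at h
  rcases v.prime.dvd_mul.1 h with h1 | h1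
  · exact hd h1
  · obtain ⟨w, hw, hvw⟩ := (Prime.dvd_finsetProd_iff v.prime _).1 h1
    have h2 : v.asIdeal ∣ w.asIdeal := v.prime.dvd_of_dvd_pow hvw
    have h3 : w.asIdeal ≤ v.asIdeal := Ideal.le_of_dvd h2
    have h4 : w.asIdeal = v.asIdeal :=
      w.isMaximal.eq_of_le v.isPrime.ne_top h3
    have h5 : w = v := HeightOneSpectrum.ext h4
    exact hv (h5 ▸ hw)

end Fermat.Agent.LT.A2.H441
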