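import Fermat.Agent.LT.A2.H467.DataSpec
import Fermat.Agent.LT.A2.H441.AsmLevel

/-!
# Row LT, tower A2, leaf A2.03.1.1.11 `WX467.AsmC` (helper441): the assembly of `DataC`

OFF-MAIN.  `asmC441 : WX467.AsmC`, VERBATIM against `LT/A2/H467/DataSpec.lean`
(helper467@8b34cad8f, sha256 72cb2b55afa8db8d).

`S = S_ψ ∪ S_tor ∪ {v ∣ 𝔡}`; local components by choice (`LocBadC` at `v ∈ S`, `LocGoodC` at
`v ∉ S`, `LocCpxC` at the infinite places); level `𝔡 · ∏_{v ∈ S} v ^ (N_v + 1)`; `η = ∏ η_v`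
(so `eta_prod` is `rfl`); the constant `c` from `ProdIntC` after the local Haar facts.
-/

set_option autoImplicit false

open IsDedekindDomain NumberField AutomorphicForm MeasureTheory
open scoped MatrixGroups Topology

noncomputable section

namespace Fermat.Agent.LT.A2.H441

open Fermat.Agent.LT.H130 Fermat.Agent.LT.H556 Fermat.Agent.LT.A2 Fermat.Agent.LT.A2.WX467

/-- A local quadratic character takes the value `1` at `1`. -/
theorem eta_one_of_locAx441 {k : Type} [Field k] [TopologicalSpace k] {absv : k → ℝ} {t n : k}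
    {ψ : k → ℂ} {μ : @Measure k (borel k)} {γ : ℂ} {η : k → ℂ}
    {F : Matrix (Fin 2) (Fin 2) k → Matrix (Fin 2) (Fin 2) k → k × k → ℂ}
    (h : LocAx absv t n ψ μ γ η F) : η 1 = 1 := by
  have h1 := h.eta_mul 1 1 one_ne_zero one_ne_zero
  rw [mul_one] at h1
  rcases h.eta_sq 1 one_ne_zero with h2 | h2
  · exact h2
  · rw [h2] at h1
    norm_num at h1

/-- **A2.03.1.1.11 ASM**: the assembly of `DataC`. -/
theorem asmC441 : WX467.AsmC := by
  intro hpsi hint htor harith hind hgood hbad hcpx K _ _ t n χT hT1 hχ hallcpx 𝔡 h𝔡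
  classical
  -- the global objects
  obtain ⟨ψ, hψ, Sψ, hSψ⟩ := hpsi K hT1
  obtain ⟨μ, μT, DT, hmeas⟩ := htor K t n hT1 hχ.irred
  obtain ⟨Stor, hStor⟩ := harith K t n χT hT1 hχ
  have hfin : {v : HeightOneSpectrum (𝓞 K) | v.asIdeal ∣ 𝔡}.Finite := Ideal.finite_factors h𝔡
  -- the set of the places which are not good
  let S : Finset (HeightOneSpectrum (𝓞 K)) := Sψ ∪ Stor ∪ hfin.toFinset
  have hSψ' : ∀ v, v ∉ S → v ∉ Sψ := fun v hv h =>
    hv (Finset.mem_union_left _ (Finset.mem_union_left _ h))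
  have hStor' : ∀ v, v ∉ S → v ∉ Stor := fun v hv h =>
    hv (Finset.mem_union_left _ (Finset.mem_union_right _ h))
  have hSd : ∀ v, v ∉ S → ¬ v.asIdeal ∣ 𝔡 := fun v hv h =>
    hv (Finset.mem_union_right _ (hfin.mem_toFinset.2 h))
  have hga : ∀ v, v ∉ S → GoodArith t n χT ψ v := fun v hv =>
    goodArith_of467 (hStor v (hStor' v hv)) (hSψ v (hSψ' v hv))
  -- the local components
  choose Nb ψb μb γb ηb Fb Tb hb using fun v => hbad K t n χT ψ v hT1 hχ hψ
  choose ψg μg γg ηg Fg Tg hg using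
    fun (v : HeightOneSpectrum (𝓞 K)) (hv : v ∉ S) => hgood K t n χT ψ v hT1 hχ hψ (hga v hv)
  choose ψc μc γc ηc Fc hc using fun u => hcpx K t n χT ψ u hT1 hχ hψ (hallcpx u)
  -- the level and the eigensystem
  have h𝔫 : asmLevel441 𝔡 S Nb ≠ ⊥ := asmLevel441_ne_bot h𝔡 S Nb
  have hnd : ∀ v, v ∉ S → ¬ v.asIdeal ∣ asmLevel441 𝔡 S Nb := fun v hv =>
    asmLevel441_not_dvd 𝔡 S Nb hv (hSd v hv)
  have hSof : ∀ v : HeightOneSpectrum (𝓞 K), ¬ v.asIdeal ∣ asmLevel441 𝔡 S Nb → v ∉ S :=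
    fun v hv h => hv (asmLevel441_dvd 𝔡 S Nb h)
  obtain ⟨π, hπl, hπ⟩ := hind K t n χT ψ hχ (asmLevel441 𝔡 S Nb) h𝔫
    (fun v hv => hga v (hSof v hv))
  -- the product data, with a free constant
  let L : ℂ → WData K := fun c =>
    { t := t
      n := n
      χT := χT
      ψ := ψ
      μ := μ
      μT := μT
      DT := DT
      π := π
      η := fun a =>
        (∏ u : InfinitePlace K, ηc u ((a : A0.Adl K).1 u)) *
          ∏ᶠ v : HeightOneSpectrum (𝓞 K),
            (if h : v ∈ S then ηb v else ηg v h) ((a : A0.Adl K).2 v)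
      c := c
      ψinf := ψc
      μinf := μc
      γinf := γc
      ηinf := ηc
      Finf := Fc
      ψfin := fun v => if h : v ∈ S then ψb v else ψg v h
      μfin := fun v => if h : v ∈ S then μb v else μg v h
      γfin := fun v => if h : v ∈ S then γb v else γg v h
      ηfin := fun v => if h : v ∈ S then ηb v else ηg v h
      Ffin := fun v => if h : v ∈ S then Fb v else Fg v h
      Tlev := fun v => if h : v ∈ S then Tb v else Tg v h }
  have hM : ∀ c, Matches (L c) t n χT ψ := fun c => ⟨rfl, rfl, rfl, rfl⟩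
  have hMb : ∀ c v, v ∈ S → MatchesFin (L c) v (ψb v) (μb v) (γb v) (ηb v) (Fb v) (Tb v) :=
    fun c v hv => ⟨dif_pos hv, dif_pos hv, dif_pos hv, dif_pos hv, dif_pos hv, dif_pos hv⟩
  have hMg : ∀ c v (hv : v ∉ S),
      MatchesFin (L c) v (ψg v hv) (μg v hv) (γg v hv) (ηg v hv) (Fg v hv) (Tg v hv) :=
    fun c v hv => ⟨dif_neg hv, dif_neg hv, dif_neg hv, dif_neg hv, dif_neg hv, dif_neg hv⟩
  have hMc : ∀ c u, MatchesInf (L c) u (ψc u) (μc u) (γc u) (ηc u) (Fc u) :=
    fun c u => ⟨rfl, rfl, rfl, rfl, rfl⟩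
  have hlev : ∀ c, (L c).π.level = asmLevel441 𝔡 S Nb := fun c => hπl
  -- the local certificates
  have hCpx : ∀ c u, CpxAt (L c) u := fun c u => hc u (L c) (hM c) (hMc c u)
  have hFin : ∀ c v, FinAt (L c) v := by
    intro c v
    by_cases hv : v ∈ S
    · refine hb v (L c) (hM c) (hMb c v hv) ?_
      rw [hlev c]
      exact asmLevel441_le_pow' 𝔡 S Nb hv
    · refine (hg v hv (L c) (hM c) (hMg c v hv) ?_).1
      rw [hlev c]
      exact hnd v hv
  have hηc1 : ∀ u, ηc u 1 = 1 := fun u => (hCpx 0 u).eta_one 1 one_ne_zero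
  have hηf1 : ∀ v, (L 0).ηfin v 1 = 1 := fun v => eta_one_of_locAx441 (hFin 0 v).ax
  have hGood : ∀ c v, ¬ v.asIdeal ∣ (L c).π.level → GoodAt (L c) v := by
    intro c v hvl
    rw [hlev c] at hvl
    have hv : v ∉ S := hSof v hvl
    refine (hg v hv (L c) (hM c) (hMg c v hv) ?_).2 ?_
    · rw [hlev c]
      exact hvl
    · intro a ha
      show (∏ u : InfinitePlace K, ηc u ((a : A0.Adl K).1 u)) *
          ∏ᶠ w : HeightOneSpectrum (𝓞 K),
            (if h : w ∈ S then ηb w else ηg w h) ((a : A0.Adl K).2 w) = _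
      have h1 : (∏ u : InfinitePlace K, ηc u ((a : A0.Adl K).1 u)) = 1 := by
        refine Finset.prod_eq_one fun u _ => ?_
        rw [ha.1 u]
        exact hηc1 u
      have h2 : (∏ᶠ w : HeightOneSpectrum (𝓞 K),
            (if h : w ∈ S then ηb w else ηg w h) ((a : A0.Adl K).2 w))
          = (if h : v ∈ S then ηb v else ηg v h) ((a : A0.Adl K).2 v) := by
        refine finprod_eq_single _ v fun w hw => ?_
        rw [ha.2 w hw]
        exact hηf1 w
      rw [h1, h2, one_mul, dif_neg hv]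
  -- the constant
  have hcov : IsCovolOne μ := (hmeas (L 0).toKData rfl rfl rfl rfl rfl).covol
  obtain ⟨c, hc'⟩ := hint K hT1 μ μc (L 0).μfin hcov (fun u => (hCpx 0 u).ax.haar)
    (fun v => (hFin 0 v).ax.haar)
    ⟨S, fun v hv => (hGood 0 v (by rw [hlev 0]; exact hnd v hv)).meas_one⟩
  -- the assembly
  refine ⟨L c, rfl, rfl, rfl, ?_, ?_⟩
  · rw [hlev c]
    exact asmLevel441_le 𝔡 S Nb
  · exact
      { torus := hχ
        char := hψ
        measured := hmeas (L c).toKData rfl rfl rfl rfl rfl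
        induced := hπ
        cpx := hCpx c
        fin := hFin c
        good := hGood c
        eta_prod := fun _ => rfl
        prod_int := hc' }

end Fermat.Agent.LT.A2.H441

end
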